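import Mathlib

/-!
# S58 scratch, block (I4): a `2`-torsion point at the node

`K` an algebraically closed field with `2 ≠ 0`, `A` a valuation subring, `W` a Weierstrass curve
over `K` with `b₂ b₄ b₆ ∈ A`, `v Δ < 1` and `v c₄ = 1` (multiplicative reduction).  Then the
`2`-division cubic `4 x³ + b₂ x² + 2 b₄ x + b₆` has a root `e ∈ A` at which
`g = (12 e² + 2 b₂ e + 2 b₄) / 4` (minus the `x`-derivative of the Weierstrass polynomial at the
`2`-torsion point above `e`) lies in the maximal ideal: the `2`-torsion point `(e, t)` reduces to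
the node.  All residue characteristics (including `2`, where one root of the cubic is
non-integral).
-/

set_option autoImplicit false
set_option linter.unusedSectionVars false
set_option linter.unusedVariables false

namespace Fermat.Agent.S58.Mult.NodeTorsion

variable {K : Type*} [Field K] (A : ValuationSubring K)

/-- The `2`-division cubic. -/
def P2 (b2 b4 b6 e : K) : K := 4 * e ^ 3 + b2 * e ^ 2 + 2 * b4 * e + b6

/-- A quarter of its derivative. -/
noncomputable def G2 (b2 b4 e : K) : K := (12 * e ^ 2 + 2 * b2 * e + 2 * b4) / 4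

section vieta

variable {b2 b4 b6 x y z : K}

theorem P2_of_vieta (hb2 : b2 = 4 * -(x + y + z)) (hb4 : 2 * b4 = 4 * (x * y + x * z + y * z))
    (hb6 : b6 = 4 * -(x * y * z)) : P2 b2 b4 b6 x = 0 := by
  unfold P2
  rw [hb2, hb6]
  linear_combination x * hb4

theorem G2_of_vieta (h4 : (4 : K) ≠ 0) (hb2 : b2 = 4 * -(x + y + z))
    (hb4 : 2 * b4 = 4 * (x * y + x * z + y * z)) : G2 b2 b4 x = (x - y) * (x - z) := by
  unfold G2
  rw [div_eq_iff h4, hb2]
  linear_combination hb4

end vieta

/-! ### Valuation helpers -/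

section val

variable {A}

theorem v_two_le : A.valuation (2 : K) ≤ 1 := by
  have : (2 : K) = ((2 : ℕ) : K) := by norm_num
  rw [this]
  exact (A.valuation_le_one_iff _).mpr (natCast_mem A 2)

theorem v_four_eq : A.valuation (4 : K) = A.valuation (2 : K) * A.valuation (2 : K) := by
  rw [← map_mul]; norm_num

theorem v_four_le : A.valuation (4 : K) ≤ 1 := by
  rw [v_four_eq]
  calc A.valuation (2 : K) * A.valuation (2 : K) ≤ 1 * 1 := mul_le_mul' v_two_le v_two_le
    _ = 1 := one_mul 1

theorem lt_sq_of_one_lt {s : A.ValueGroup} (hs : 1 < s) : s < s * s := by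
  calc s = 1 * s := (one_mul s).symm
    _ < s * s := mul_lt_mul_of_pos_right hs (lt_trans zero_lt_one hs)

variable {b2 b4 b6 e : K}

/-- If `4` is a unit, every root of the cubic is integral. -/
theorem val_root_le_one (h4 : A.valuation (4 : K) = 1) (hb2 : A.valuation b2 ≤ 1)
    (hb4 : A.valuation b4 ≤ 1) (hb6 : A.valuation b6 ≤ 1) (he : P2 b2 b4 b6 e = 0) :
    A.valuation e ≤ 1 := by
  by_contra hcon
  rw [not_le] at hcon
  set s := A.valuation e with hs
  have hspos : 0 < s := lt_trans zero_lt_one hcon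
  have hss : s < s * s := lt_sq_of_one_lt hcon
  have e3 : 4 * e ^ 3 = -(b2 * e ^ 2 + 2 * b4 * e + b6) := by
    unfold P2 at he; linear_combination he
  have hL : A.valuation (4 * e ^ 3) = s * s * s := by
    rw [map_mul, h4, one_mul, map_pow, ← hs, pow_succ, sq]
  have hR : A.valuation (-(b2 * e ^ 2 + 2 * b4 * e + b6)) ≤ s * s := by
    rw [Valuation.map_neg]
    refine le_trans (A.valuation.map_add _ _) (max_le ?_ ?_)
    · refine le_trans (A.valuation.map_add _ _) (max_le ?_ ?_)
      · rw [map_mul, map_pow, ← hs, sq]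
        calc A.valuation b2 * (s * s) ≤ 1 * (s * s) := mul_le_mul_left hb2 _
          _ = s * s := one_mul _
      · rw [map_mul, map_mul, ← hs]
        calc A.valuation (2 : K) * A.valuation b4 * s ≤ 1 * 1 * s :=
              mul_le_mul_left (mul_le_mul' v_two_le hb4) _
          _ = s := by rw [one_mul, one_mul]
          _ ≤ s * s := le_of_lt hss
    · exact le_trans hb6 (le_trans (le_of_lt hcon) (le_of_lt hss))
  rw [← e3, hL] at hR
  have : s * s < s * s * s := by
    calc s * s = s * s * 1 := (mul_one _).symm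
      _ < s * s * s := mul_lt_mul_of_pos_left hcon (mul_pos hspos hspos)
  exact absurd hR (not_le.mpr this)

/-- A non-integral root of the cubic has `v 4 * v e = 1` (when `b₂` is a unit). -/
theorem val_root_of_one_lt (hb2 : A.valuation b2 = 1)
    (hb4 : A.valuation b4 ≤ 1) (hb6 : A.valuation b6 ≤ 1) (he : P2 b2 b4 b6 e = 0)
    (h1 : 1 < A.valuation e) : A.valuation (4 : K) * A.valuation e = 1 := by
  set s := A.valuation e with hs
  have hspos : 0 < s := lt_trans zero_lt_one h1
  have hss : s < s * s := lt_sq_of_one_lt h1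
  have e3 : 4 * e ^ 3 + b2 * e ^ 2 = -(2 * b4 * e + b6) := by
    unfold P2 at he; linear_combination he
  have hR : A.valuation (-(2 * b4 * e + b6)) ≤ s := by
    rw [Valuation.map_neg]
    refine le_trans (A.valuation.map_add _ _) (max_le ?_ (le_trans hb6 (le_of_lt h1)))
    rw [map_mul, map_mul, ← hs]
    calc A.valuation (2 : K) * A.valuation b4 * s ≤ 1 * 1 * s :=
          mul_le_mul_left (mul_le_mul' v_two_le hb4) _
      _ = s := by rw [one_mul, one_mul]
  have hb : A.valuation (b2 * e ^ 2) = s * s := by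
    rw [map_mul, hb2, one_mul, map_pow, ← hs, sq]
  have ha : A.valuation (4 * e ^ 3) = A.valuation (4 : K) * s * (s * s) := by
    rw [map_mul, map_pow, ← hs, pow_succ, sq]; ac_rfl
  by_contra hne
  have hne' : A.valuation (4 * e ^ 3) ≠ A.valuation (b2 * e ^ 2) := by
    rw [ha, hb]
    intro h
    apply hne
    have h2 : A.valuation (4 : K) * s * (s * s) = 1 * (s * s) := by rw [h, one_mul]
    exact mul_right_cancel₀ (mul_pos hspos hspos).ne' h2
  have hmax := Valuation.map_add_of_distinct_val A.valuation hne'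
  rw [e3] at hmax
  have : s * s ≤ s := by
    calc s * s = A.valuation (b2 * e ^ 2) := hb.symm
      _ ≤ max (A.valuation (4 * e ^ 3)) (A.valuation (b2 * e ^ 2)) := le_max_right _ _
      _ = A.valuation (-(2 * b4 * e + b6)) := hmax.symm
      _ ≤ s := hR
  exact absurd this (not_le.mpr hss)

end val

/-! ### The two cases -/

section cases

variable {A} {b2 b4 b6 Δ x y z : K}

/-- The product formula `Δ = -16 g_x g_y g_z`. -/
def ProdFormula (Δ x y z : K) : Prop :=
  Δ = -16 * ((x - y) * (x - z)) * ((y - x) * (y - z)) * ((z - x) * (z - y))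

theorem ProdFormula.perm132 (h : ProdFormula Δ x y z) : ProdFormula Δ x z y := by
  unfold ProdFormula at *; rw [h]; ring

theorem ProdFormula.perm321 (h : ProdFormula Δ x y z) : ProdFormula Δ z y x := by
  unfold ProdFormula at *; rw [h]; ring

theorem v_sixteen : A.valuation (16 : K) = A.valuation (4 : K) * A.valuation (4 : K) := by
  rw [← map_mul]; norm_num

/-- Case `v 4 = 1`: all roots are integral and one of the `g` lies in the maximal ideal. -/
theorem caseA (h4 : A.valuation (4 : K) = 1) (h40 : (4 : K) ≠ 0)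
    (hb2A : A.valuation b2 ≤ 1) (hb4A : A.valuation b4 ≤ 1) (hb6A : A.valuation b6 ≤ 1)
    (hb2 : b2 = 4 * -(x + y + z)) (hb4 : 2 * b4 = 4 * (x * y + x * z + y * z))
    (hb6 : b6 = 4 * -(x * y * z)) (hΔ : ProdFormula Δ x y z) (hΔv : A.valuation Δ < 1) :
    ∃ e : K, A.valuation e ≤ 1 ∧ P2 b2 b4 b6 e = 0 ∧ A.valuation (G2 b2 b4 e) < 1 := by
  have hPx : P2 b2 b4 b6 x = 0 := P2_of_vieta hb2 hb4 hb6
  have hPy : P2 b2 b4 b6 y = 0 :=
    P2_of_vieta (x := y) (y := x) (z := z) (by rw [hb2]; ring) (by rw [hb4]; ring)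
      (by rw [hb6]; ring)
  have hPz : P2 b2 b4 b6 z = 0 :=
    P2_of_vieta (x := z) (y := y) (z := x) (by rw [hb2]; ring) (by rw [hb4]; ring)
      (by rw [hb6]; ring)
  have hx := val_root_le_one h4 hb2A hb4A hb6A hPx
  have hy := val_root_le_one h4 hb2A hb4A hb6A hPy
  have hz := val_root_le_one h4 hb2A hb4A hb6A hPz
  have hGx : G2 b2 b4 x = (x - y) * (x - z) := G2_of_vieta h40 hb2 hb4
  have hGy : G2 b2 b4 y = (y - x) * (y - z) :=
    G2_of_vieta (x := y) (y := x) (z := z) h40 (by rw [hb2]; ring) (by rw [hb4]; ring)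
  have hGz : G2 b2 b4 z = (z - x) * (z - y) :=
    G2_of_vieta (x := z) (y := x) (z := y) h40 (by rw [hb2]; ring) (by rw [hb4]; ring)
  by_contra hcon
  push Not at hcon
  have h1 := hcon x hx hPx
  have h2 := hcon y hy hPy
  have h3 := hcon z hz hPz
  rw [hGx] at h1
  rw [hGy] at h2
  rw [hGz] at h3
  have h16 : A.valuation (16 : K) = 1 := by rw [v_sixteen, h4, one_mul]
  have : (1 : A.ValueGroup) ≤ A.valuation Δ := by
    unfold ProdFormula at hΔ
    rw [hΔ, map_mul, map_mul, map_mul, Valuation.map_neg, h16, one_mul]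
    calc (1 : A.ValueGroup) = 1 * 1 * 1 := by rw [one_mul, one_mul]
      _ ≤ _ := mul_le_mul' (mul_le_mul' h1 h2) h3
  exact absurd hΔv (not_lt.mpr this)

/-- Two non-integral roots are impossible (when `b₂` is a unit). -/
theorem not_two_nonintegral (hb2u : A.valuation b2 = 1)
    (hb4A : A.valuation b4 ≤ 1) (hb6A : A.valuation b6 ≤ 1)
    (hb2 : b2 = 4 * -(x + y + z)) (hb4 : 2 * b4 = 4 * (x * y + x * z + y * z))
    (hb6 : b6 = 4 * -(x * y * z)) (hz : 1 < A.valuation z) (hx : 1 < A.valuation x) : False := by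
  have hPx : P2 b2 b4 b6 x = 0 := P2_of_vieta hb2 hb4 hb6
  have hPz : P2 b2 b4 b6 z = 0 :=
    P2_of_vieta (x := z) (y := y) (z := x) (by rw [hb2]; ring) (by rw [hb4]; ring)
      (by rw [hb6]; ring)
  have h4x := val_root_of_one_lt hb2u hb4A hb6A hPx hx
  have h4z := val_root_of_one_lt hb2u hb4A hb6A hPz hz
  have hv4le : A.valuation (4 : K) ≤ 1 := v_four_le
  have hv4pos : 0 < A.valuation (4 : K) := by
    rcases eq_or_lt_of_le (zero_le (a := A.valuation (4 : K))) with h | h
    · rw [← h, zero_mul] at h4x; exact absurd h4x zero_ne_one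
    · exact h
  have hxz : A.valuation x = A.valuation z := mul_left_cancel₀ hv4pos.ne' (h4x.trans h4z.symm)
  -- `v b6 = v4 vx vy vz ≤ 1` gives `vx vy ≤ 1`
  have h6 : A.valuation b6 = (A.valuation (4 : K) * A.valuation z) *
      (A.valuation x * A.valuation y) := by
    rw [hb6, map_mul, Valuation.map_neg, map_mul, map_mul]; ac_rfl
  rw [h4z, one_mul] at h6
  have hxy : A.valuation x * A.valuation y ≤ 1 := h6 ▸ hb6A
  -- `4 x z = 2 b4 - 4 x y - 4 y z`
  have e : 4 * (x * z) = 2 * b4 - 4 * (x * y) - 4 * (y * z) := by linear_combination (-1 : K) * hb4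
  have hL : A.valuation (4 * (x * z)) = A.valuation z := by
    rw [map_mul, map_mul, ← mul_assoc, h4x, one_mul]
  have h2b4 : A.valuation (2 * b4) ≤ 1 := by
    rw [map_mul]
    calc A.valuation (2 : K) * A.valuation b4 ≤ 1 * 1 := mul_le_mul' v_two_le hb4A
      _ = 1 := one_mul 1
  have hxy' : A.valuation (4 * (x * y)) ≤ 1 := by
    rw [map_mul, map_mul]
    calc A.valuation (4 : K) * (A.valuation x * A.valuation y) ≤ 1 * 1 :=
          mul_le_mul' hv4le hxy
      _ = 1 := one_mul 1
  have hyz' : A.valuation (4 * (y * z)) ≤ 1 := by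
    rw [map_mul, map_mul, ← hxz, mul_comm (A.valuation y)]
    calc A.valuation (4 : K) * (A.valuation x * A.valuation y) ≤ 1 * 1 :=
          mul_le_mul' hv4le hxy
      _ = 1 := one_mul 1
  have hR : A.valuation (2 * b4 - 4 * (x * y) - 4 * (y * z)) ≤ 1 := by
    refine le_trans (A.valuation.map_sub _ _) (max_le ?_ hyz')
    exact le_trans (A.valuation.map_sub _ _) (max_le h2b4 hxy')
  rw [← e, hL] at hR
  exact absurd hR (not_le.mpr hz)

/-- Case `v 2 < 1` with `z` the non-integral root. -/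
theorem caseB_core (h40 : (4 : K) ≠ 0) (hb2u : A.valuation b2 = 1)
    (hb4A : A.valuation b4 ≤ 1) (hb6A : A.valuation b6 ≤ 1)
    (hb2 : b2 = 4 * -(x + y + z)) (hb4 : 2 * b4 = 4 * (x * y + x * z + y * z))
    (hb6 : b6 = 4 * -(x * y * z)) (hΔ : ProdFormula Δ x y z) (hΔv : A.valuation Δ < 1)
    (hz : 1 < A.valuation z) :
    ∃ e : K, A.valuation e ≤ 1 ∧ P2 b2 b4 b6 e = 0 ∧ A.valuation (G2 b2 b4 e) < 1 := by
  have hPx : P2 b2 b4 b6 x = 0 := P2_of_vieta hb2 hb4 hb6
  have hPy : P2 b2 b4 b6 y = 0 :=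
    P2_of_vieta (x := y) (y := x) (z := z) (by rw [hb2]; ring) (by rw [hb4]; ring)
      (by rw [hb6]; ring)
  have hPz : P2 b2 b4 b6 z = 0 :=
    P2_of_vieta (x := z) (y := y) (z := x) (by rw [hb2]; ring) (by rw [hb4]; ring)
      (by rw [hb6]; ring)
  have hx : A.valuation x ≤ 1 := by
    by_contra h
    exact not_two_nonintegral hb2u hb4A hb6A hb2 hb4 hb6 hz (not_le.mp h)
  have hy : A.valuation y ≤ 1 := by
    by_contra h
    exact not_two_nonintegral (x := y) (y := x) (z := z) hb2u hb4A hb6A (by rw [hb2]; ring)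
      (by rw [hb4]; ring) (by rw [hb6]; ring) hz (not_le.mp h)
  have h4z := val_root_of_one_lt hb2u hb4A hb6A hPz hz
  have hGx : G2 b2 b4 x = (x - y) * (x - z) := G2_of_vieta h40 hb2 hb4
  have hGy : G2 b2 b4 y = (y - x) * (y - z) :=
    G2_of_vieta (x := y) (y := x) (z := z) h40 (by rw [hb2]; ring) (by rw [hb4]; ring)
  have hzx : A.valuation (z - x) = A.valuation z :=
    Valuation.map_sub_eq_of_lt_left _ (lt_of_le_of_lt hx hz)
  have hzy : A.valuation (z - y) = A.valuation z :=
    Valuation.map_sub_eq_of_lt_left _ (lt_of_le_of_lt hy hz)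
  by_contra hcon
  push Not at hcon
  have h1 := hcon x hx hPx
  have h2 := hcon y hy hPy
  rw [hGx] at h1
  rw [hGy] at h2
  have : (1 : A.ValueGroup) ≤ A.valuation Δ := by
    unfold ProdFormula at hΔ
    rw [hΔ, map_mul, map_mul, map_mul, Valuation.map_neg, v_sixteen, map_mul (A.valuation) (z - x),
      hzx, hzy]
    have e : A.valuation (4 : K) * A.valuation (4 : K) * A.valuation ((x - y) * (x - z)) *
        A.valuation ((y - x) * (y - z)) * (A.valuation z * A.valuation z)
        = (A.valuation (4 : K) * A.valuation z) * (A.valuation (4 : K) * A.valuation z) *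
          (A.valuation ((x - y) * (x - z)) * A.valuation ((y - x) * (y - z))) := by ac_rfl
    rw [e, h4z, one_mul, one_mul]
    calc (1 : A.ValueGroup) = 1 * 1 := (one_mul 1).symm
      _ ≤ _ := mul_le_mul' h1 h2
  exact absurd hΔv (not_lt.mpr this)

/-- Case `v 2 < 1`. -/
theorem caseB (h40 : (4 : K) ≠ 0) (h2 : A.valuation (2 : K) < 1) (hb2u : A.valuation b2 = 1)
    (hb4A : A.valuation b4 ≤ 1) (hb6A : A.valuation b6 ≤ 1)
    (hb2 : b2 = 4 * -(x + y + z)) (hb4 : 2 * b4 = 4 * (x * y + x * z + y * z))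
    (hb6 : b6 = 4 * -(x * y * z)) (hΔ : ProdFormula Δ x y z) (hΔv : A.valuation Δ < 1) :
    ∃ e : K, A.valuation e ≤ 1 ∧ P2 b2 b4 b6 e = 0 ∧ A.valuation (G2 b2 b4 e) < 1 := by
  -- some root is non-integral
  have h4lt : A.valuation (4 : K) < 1 := by
    rw [v_four_eq]
    calc A.valuation (2 : K) * A.valuation (2 : K) ≤ 1 * A.valuation (2 : K) :=
          mul_le_mul_left v_two_le _
      _ = A.valuation (2 : K) := one_mul _
      _ < 1 := h2
  have hsome : 1 < A.valuation x ∨ 1 < A.valuation y ∨ 1 < A.valuation z := by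
    by_contra hcon
    push Not at hcon
    obtain ⟨hx, hy, hz⟩ := hcon
    have hsum : A.valuation (x + y + z) ≤ 1 :=
      le_trans (A.valuation.map_add _ _)
        (max_le (le_trans (A.valuation.map_add _ _) (max_le hx hy)) hz)
    have : A.valuation b2 < 1 := by
      rw [hb2, map_mul, Valuation.map_neg]
      calc A.valuation (4 : K) * A.valuation (x + y + z) ≤ A.valuation (4 : K) * 1 :=
            mul_le_mul_right hsum _
        _ = A.valuation (4 : K) := mul_one _
        _ < 1 := h4lt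
    rw [hb2u] at this
    exact lt_irrefl _ this
  rcases hsome with hx | hy | hz
  · exact caseB_core (x := z) (y := y) (z := x) h40 hb2u hb4A hb6A (by rw [hb2]; ring)
      (by rw [hb4]; ring) (by rw [hb6]; ring) hΔ.perm321 hΔv hx
  · exact caseB_core (x := x) (y := z) (z := y) h40 hb2u hb4A hb6A (by rw [hb2]; ring)
      (by rw [hb4]; ring) (by rw [hb6]; ring) hΔ.perm132 hΔv hy
  · exact caseB_core h40 hb2u hb4A hb6A hb2 hb4 hb6 hΔ hΔv hz

end cases

/-! ### The root at the node of a Weierstrass curve -/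

section curve

open WeierstrassCurve

variable {A} [IsAlgClosed K] (W : WeierstrassCurve K)

/-- The `2`-division cubic of a Weierstrass curve with multiplicative reduction over an
algebraically closed field has an integral root at which the quarter derivative lies in the
maximal ideal. -/
theorem exists_node_root (h2 : (2 : K) ≠ 0) (hb2 : A.valuation W.b₂ ≤ 1)
    (hb4 : A.valuation W.b₄ ≤ 1) (hb6 : A.valuation W.b₆ ≤ 1) (hΔ : A.valuation W.Δ < 1)
    (hc4 : A.valuation W.c₄ = 1) :
    ∃ e : K, A.valuation e ≤ 1 ∧ P2 W.b₂ W.b₄ W.b₆ e = 0 ∧ A.valuation (G2 W.b₂ W.b₄ e) < 1 := by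
  have h40 : (4 : K) ≠ 0 := by
    have : (4 : K) = 2 * 2 := by norm_num
    rw [this]; exact mul_ne_zero h2 h2
  have h160 : (16 : K) ≠ 0 := by
    have : (16 : K) = 4 * 4 := by norm_num
    rw [this]; exact mul_ne_zero h40 h40
  have ha : W.twoTorsionPolynomial.a ≠ 0 := h40
  have hsplit : (W.twoTorsionPolynomial.toPoly.map (RingHom.id K)).Splits :=
    IsAlgClosed.splits _
  obtain ⟨x, y, z, h3⟩ := (Cubic.splits_iff_roots_eq_three ha).mp hsplit
  have e2 := Cubic.b_eq_three_roots ha h3
  have e4 := Cubic.c_eq_three_roots ha h3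
  have e6 := Cubic.d_eq_three_roots ha h3
  have eD := Cubic.discr_eq_prod_three_roots ha h3
  simp only [RingHom.id_apply, twoTorsionPolynomial] at e2 e4 e6
  rw [RingHom.id_apply, W.twoTorsionPolynomial_discr] at eD
  simp only [RingHom.id_apply, twoTorsionPolynomial] at eD
  have hP : ProdFormula W.Δ x y z := by
    unfold ProdFormula
    apply mul_left_cancel₀ h160
    linear_combination eD
  rcases eq_or_lt_of_le (v_two_le (A := A)) with h21 | h21
  · have h41 : A.valuation (4 : K) = 1 := by rw [v_four_eq, h21, one_mul]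
    exact caseA h41 h40 hb2 hb4 hb6 e2 e4 e6 hP hΔ
  · have h24 : A.valuation (24 * W.b₄) < 1 := by
      have : (24 : K) * W.b₄ = 2 * (12 * W.b₄) := by ring
      rw [this, map_mul]
      have h12 : A.valuation (12 * W.b₄) ≤ 1 := by
        rw [map_mul]
        have : (12 : K) = ((12 : ℕ) : K) := by norm_num
        calc A.valuation (12 : K) * A.valuation W.b₄ ≤ 1 * 1 := by
              refine mul_le_mul' ?_ hb4
              rw [this]; exact (A.valuation_le_one_iff _).mpr (natCast_mem A 12)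
          _ = 1 := one_mul 1
      calc A.valuation (2 : K) * A.valuation (12 * W.b₄) ≤ A.valuation (2 : K) * 1 :=
            mul_le_mul_right h12 _
        _ = A.valuation (2 : K) := mul_one _
        _ < 1 := h21
    have hb2u : A.valuation W.b₂ = 1 := by
      have e : W.b₂ ^ 2 = W.c₄ + 24 * W.b₄ := by rw [WeierstrassCurve.c₄]; ring
      have h : A.valuation (W.b₂ ^ 2) = 1 := by
        rw [e, Valuation.map_add_eq_of_lt_left _ (by rw [hc4]; exact h24), hc4]
      rw [map_pow] at h
      exact (pow_eq_one_iff_of_nonneg zero_le two_ne_zero).mp h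
    exact caseB h40 h21 hb2u hb4 hb6 e2 e4 e6 hP hΔ

/-- **The `2`-torsion point at the node.**  Integral `r t` with `(r, t)` a `2`-torsion point of
`W` whose translate to the origin puts `W` in nodal form with `v a₄ < 1`; in the shapes of
`variableChange_a₃`, `variableChange_a₆`, `variableChange_a₄` for `C = ⟨1, r, 0, t⟩`. -/
theorem exists_node_torsion (h2 : (2 : K) ≠ 0) (h1 : A.valuation W.a₁ ≤ 1)
    (h2' : A.valuation W.a₂ ≤ 1) (h3 : A.valuation W.a₃ ≤ 1) (h4 : A.valuation W.a₄ ≤ 1)
    (h6 : A.valuation W.a₆ ≤ 1) (hΔ : A.valuation W.Δ < 1) (hc4 : A.valuation W.c₄ = 1) :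
    ∃ r t : K, A.valuation r ≤ 1 ∧ A.valuation t ≤ 1 ∧
      W.a₃ + r * W.a₁ + 2 * t = 0 ∧
      W.a₆ + r * W.a₄ + r ^ 2 * W.a₂ + r ^ 3 - t * W.a₃ - t ^ 2 - r * t * W.a₁ = 0 ∧
      A.valuation (W.a₄ + 2 * r * W.a₂ - t * W.a₁ + 3 * r ^ 2) < 1 := by
  have hle : ∀ {a b : K}, A.valuation a ≤ 1 → A.valuation b ≤ 1 → A.valuation (a * b) ≤ 1 := by
    intro a b ha hb
    rw [map_mul]
    calc A.valuation a * A.valuation b ≤ 1 * 1 := mul_le_mul' ha hb
      _ = 1 := one_mul 1
  have hadd : ∀ {a b : K}, A.valuation a ≤ 1 → A.valuation b ≤ 1 → A.valuation (a + b) ≤ 1 :=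
    fun ha hb => le_trans (A.valuation.map_add _ _) (max_le ha hb)
  have hnat : ∀ n : ℕ, A.valuation ((n : ℕ) : K) ≤ 1 :=
    fun n => (A.valuation_le_one_iff _).mpr (natCast_mem A n)
  have h2le : A.valuation (2 : K) ≤ 1 := v_two_le
  have h4le : A.valuation (4 : K) ≤ 1 := v_four_le
  have hb2 : A.valuation W.b₂ ≤ 1 := by
    rw [WeierstrassCurve.b₂]
    exact hadd (by rw [sq]; exact hle h1 h1) (hle h4le h2')
  have hb4 : A.valuation W.b₄ ≤ 1 := by
    rw [WeierstrassCurve.b₄]
    exact hadd (hle h2le h4) (hle h1 h3)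
  have hb6 : A.valuation W.b₆ ≤ 1 := by
    rw [WeierstrassCurve.b₆]
    exact hadd (by rw [sq]; exact hle h3 h3) (hle h4le h6)
  obtain ⟨e, he, hPe, hGe⟩ := exists_node_root (A := A) W h2 hb2 hb4 hb6 hΔ hc4
  have h40 : (4 : K) ≠ 0 := by
    have : (4 : K) = 2 * 2 := by norm_num
    rw [this]; exact mul_ne_zero h2 h2
  obtain ⟨t, ht2⟩ : ∃ t : K, 2 * t = -(W.a₁ * e + W.a₃) :=
    ⟨-(W.a₁ * e + W.a₃) / 2, by field_simp⟩
  have hcurve : W.a₆ + e * W.a₄ + e ^ 2 * W.a₂ + e ^ 3 - t * W.a₃ - t ^ 2 - e * t * W.a₁ = 0 := by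
    apply mul_left_cancel₀ h40
    unfold P2 at hPe
    rw [WeierstrassCurve.b₂, WeierstrassCurve.b₄, WeierstrassCurve.b₆] at hPe
    linear_combination hPe - (2 * t + (W.a₁ * e + W.a₃)) * ht2
  refine ⟨e, t, he, ?_, ?_, hcurve, ?_⟩
  · -- integrality of `t`
    by_contra hcon
    rw [not_le] at hcon
    have hq : t ^ 2 = -((W.a₁ * e + W.a₃) * t)
        + (e ^ 3 + W.a₂ * e ^ 2 + W.a₄ * e + W.a₆) := by linear_combination -hcurve
    have hc1 : A.valuation (e ^ 3 + W.a₂ * e ^ 2 + W.a₄ * e + W.a₆) ≤ 1 := by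
      refine hadd (hadd (hadd ?_ (hle h2' ?_)) (hle h4 he)) h6
      · rw [pow_succ, sq]; exact hle (hle he he) he
      · rw [sq]; exact hle he he
    have hc2 : A.valuation (-((W.a₁ * e + W.a₃) * t)) ≤ A.valuation t := by
      rw [Valuation.map_neg, map_mul]
      calc A.valuation (W.a₁ * e + W.a₃) * A.valuation t ≤ 1 * A.valuation t :=
            mul_le_mul_left (hadd (hle h1 he) h3) _
        _ = A.valuation t := one_mul _
    have hR : A.valuation (t ^ 2) ≤ A.valuation t := by
      rw [hq]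
      exact le_trans (A.valuation.map_add _ _) (max_le hc2 (le_trans hc1 (le_of_lt hcon)))
    rw [map_pow, sq] at hR
    exact absurd hR (not_le.mpr (lt_sq_of_one_lt hcon))
  · linear_combination ht2
  · have hG : W.a₄ + 2 * e * W.a₂ - t * W.a₁ + 3 * e ^ 2 = G2 W.b₂ W.b₄ e := by
      unfold G2
      rw [eq_div_iff h40, WeierstrassCurve.b₂, WeierstrassCurve.b₄]
      linear_combination (-2 * W.a₁) * ht2
    rw [hG]; exact hGe

end curve

end Fermat.Agent.S58.Mult.NodeTorsion
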