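import Fermat.Agent.S58.Mult.TwistAct
import Fermat.Agent.S58.Mult.NodeTorsion
import Fermat.Agent.S13.Local.FreyTwoGalois
import Fermat.Agent.S13.CU.VarChange
import Fermat.Prelude.Def_FLTPrelim_Modularity

/-!
# S58 scratch, block (I4): unipotent inertia at a multiplicative prime, general integral model

`W : WeierstrassCurve ℤ`, `q` a prime with `q ∣ Δ`, `q ∤ c₄` (multiplicative reduction), `A` a
valuation subring of `ℚ̄` over `q`, `σ` in the inertia group of `A`, `m` prime to `q`: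
`σ • (σ • P - P) = σ • P - P` for every `P ∈ E(ℚ̄)` with `m • P = 0`.

Method: translate a `2`-torsion point reducing to the node (`NodeTorsion`) to the origin; the
translated curve is in the nodal form of `S13/Local`, the point groups are identified by
`S13/CU/VarChange.pointEquiv`, and `σ` acts on the nodal coordinates by the twisted rule of
`TwistAct` with `(c, c') = (σ r - r, σ t - t)`.
-/

set_option autoImplicit false
set_option linter.unusedSectionVars false
set_option linter.unusedVariables false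

noncomputable section

namespace Fermat.Agent.S58.Mult.Unipotent

open WeierstrassCurve WeierstrassCurve.Affine WeierstrassCurve.Affine.Point
open Fermat.Agent.S13.Local Fermat.Agent.S13.Local.NodalInst
open Fermat.Agent.S13.CU.VarChange
open Fermat.Agent.S05.FreyLeg
open Fermat.Agent.S58.Mult.TwistAct

local notation "Qbar" => AlgebraicClosure ℚ
local notation "GQ" => (AlgebraicClosure ℚ ≃ₐ[ℚ] AlgebraicClosure ℚ)

variable {W' : Affine ℚ}

/-- The translation `(x, y) ↦ (x + r, y + t)`. -/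
def trans (r t : Qbar) : VariableChange Qbar := ⟨1, r, 0, t⟩

@[simp] theorem trans_u (r t : Qbar) : ((trans r t).u : Qbar) = 1 := rfl
@[simp] theorem trans_r (r t : Qbar) : (trans r t).r = r := rfl
@[simp] theorem trans_s (r t : Qbar) : (trans r t).s = 0 := rfl
@[simp] theorem trans_t (r t : Qbar) : (trans r t).t = t := rfl

section transport

variable (r t : Qbar)

/-- The translated curve. -/
abbrev V (W' : Affine ℚ) (r t : Qbar) : WeierstrassCurve Qbar := trans r t • (W'⁄Qbar)

/-- The identification of the point groups. -/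
def phi : (V W' r t).toAffine.Point ≃+ (W'⁄Qbar).Point :=
  pointEquiv (W'⁄Qbar) (trans r t)

theorem ptX_phi {P : (V W' r t).toAffine.Point} (hP : P ≠ 0) :
    ptX (W'⁄Qbar) (phi (W' := W') r t P) = ptX (V W' r t) P + r := by
  cases P with
  | zero => exact absurd rfl hP
  | some x y h =>
    show vx (trans r t) x = x + r
    simp [vx]

theorem ptY_phi {P : (V W' r t).toAffine.Point} (hP : P ≠ 0) :
    ptY (W'⁄Qbar) (phi (W' := W') r t P) = ptY (V W' r t) P + t := by
  cases P with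
  | zero => exact absurd rfl hP
  | some x y h =>
    show vy (trans r t) x y = y + t
    simp [vy]

/-- The transported action of a Galois element on the translated curve. -/
def sAct (σ : GQ) : (V W' r t).toAffine.Point →+ (V W' r t).toAffine.Point :=
  ((phi (W' := W') r t).symm.toAddMonoidHom.comp (pointHom (W' := W') σ)).comp
    (phi (W' := W') r t).toAddMonoidHom

theorem phi_sAct (σ : GQ) (P : (V W' r t).toAffine.Point) :
    phi (W' := W') r t (sAct (W' := W') r t σ P) = σ • (phi (W' := W') r t P) := by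
  show phi (W' := W') r t ((phi (W' := W') r t).symm (pointHom (W' := W') σ _)) = _
  rw [AddEquiv.apply_symm_apply]
  rfl

theorem sAct_eq_zero {σ : GQ} {P : (V W' r t).toAffine.Point}
    (h : sAct (W' := W') r t σ P = 0) : P = 0 := by
  have h1 := phi_sAct (W' := W') r t σ P
  rw [h, _root_.map_zero] at h1
  have h2 : phi (W' := W') r t P = 0 := by
    by_contra hne
    exact NodalInst.smul_ne_zero_point σ hne h1.symm
  exact (phi (W' := W') r t).map_eq_zero_iff.mp h2

theorem sAct_ne_zero {σ : GQ} {P : (V W' r t).toAffine.Point} (hP : P ≠ 0) :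
    sAct (W' := W') r t σ P ≠ 0 := fun h => hP (sAct_eq_zero r t h)

theorem phi_ne_zero {P : (V W' r t).toAffine.Point} (hP : P ≠ 0) :
    phi (W' := W') r t P ≠ 0 := fun h => hP ((phi (W' := W') r t).map_eq_zero_iff.mp h)

theorem ptX_sAct (σ : GQ) {P : (V W' r t).toAffine.Point} (hP : P ≠ 0) :
    ptX (V W' r t) (sAct (W' := W') r t σ P) = σ (ptX (V W' r t) P) + (σ r - r) := by
  have h1 := ptX_phi (W' := W') r t (sAct_ne_zero (σ := σ) r t hP)
  rw [phi_sAct, ptX_smul, ptX_phi r t hP, map_add] at h1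
  linear_combination -h1

theorem ptY_sAct (σ : GQ) {P : (V W' r t).toAffine.Point} (hP : P ≠ 0) :
    ptY (V W' r t) (sAct (W' := W') r t σ P) = σ (ptY (V W' r t) P) + (σ t - t) := by
  have h1 := ptY_phi (W' := W') r t (sAct_ne_zero (σ := σ) r t hP)
  rw [phi_sAct, ptY_smul, ptY_phi r t hP, map_add] at h1
  linear_combination -h1

/-- The twisted inertia action on the nodal data of the translated curve. -/
theorem twAct (hV : IsNodalForm (V W' r t)) {A : ValuationSubring Qbar} {σ : GQ}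
    (hσ : σ ∈ A.inertiaSubgroupIn ℚ) (hr : r ∈ A) :
    TwAct (nodalData hV) A (σ : Qbar →+* Qbar) (sAct (W' := W') r t σ) (σ r - r) (σ t - t) where
  mem_iff := Fermat.Agent.S05.LocalFrey.inertia_mem_iff hσ
  sub_mem := Fermat.Agent.S05.LocalFrey.inertia_sub_mem hσ
  hval := FreyTwoGalois.hval' hσ
  inj := fun _ h => sAct_eq_zero r t h
  X_map := fun _ hP => ptX_sAct r t σ hP
  Y_map := fun _ hP => ptY_sAct r t σ hP
  hc := A.mem_nonunits_iff.mp (Fermat.Agent.S05.LocalFrey.inertia_sub_mem hσ r hr)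

/-- **(I4), translated form.** -/
theorem unipotent_of_trans (hV : IsNodalForm (V W' r t)) {A : ValuationSubring Qbar}
    (H : NodalData.Hyp A.valuation (V W' r t).a₁ (V W' r t).a₂ (V W' r t).a₄) {σ : GQ}
    (hσ : σ ∈ A.inertiaSubgroupIn ℚ) (hr : r ∈ A) {m : ℕ} (hm : A.valuation (m : Qbar) = 1)
    (P : (W'⁄Qbar).Point) (hP : m • P = 0) : σ • (σ • P - P) = σ • P - P := by
  set Q := (phi (W' := W') r t).symm P with hQ
  have hPQ : phi (W' := W') r t Q = P := AddEquiv.apply_symm_apply _ _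
  have hmQ : m • Q = 0 := by
    rw [hQ, ← map_nsmul, hP, _root_.map_zero]
  have key := (twAct r t hV hσ hr).unipotent H hm hmQ
  have h2 := congrArg (phi (W' := W') r t) key
  rw [phi_sAct, map_sub, phi_sAct, hPQ] at h2
  exact h2

end transport

/-! ### The integral model -/

section model

variable (W : WeierstrassCurve ℤ)

/-- The curve over `ℚ̄`. -/
abbrev EQ (W : WeierstrassCurve ℤ) : Affine ℚ := W.map (Int.castRingHom ℚ)

theorem a₁_eq : ((EQ W)⁄Qbar).a₁ = ((W.a₁ : ℤ) : Qbar) := by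
  simp [WeierstrassCurve.baseChange, WeierstrassCurve.map]
theorem a₂_eq : ((EQ W)⁄Qbar).a₂ = ((W.a₂ : ℤ) : Qbar) := by
  simp [WeierstrassCurve.baseChange, WeierstrassCurve.map]
theorem a₃_eq : ((EQ W)⁄Qbar).a₃ = ((W.a₃ : ℤ) : Qbar) := by
  simp [WeierstrassCurve.baseChange, WeierstrassCurve.map]
theorem a₄_eq : ((EQ W)⁄Qbar).a₄ = ((W.a₄ : ℤ) : Qbar) := by
  simp [WeierstrassCurve.baseChange, WeierstrassCurve.map]
theorem a₆_eq : ((EQ W)⁄Qbar).a₆ = ((W.a₆ : ℤ) : Qbar) := by
  simp [WeierstrassCurve.baseChange, WeierstrassCurve.map]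

theorem Δ_eq : ((EQ W)⁄Qbar).Δ = ((W.Δ : ℤ) : Qbar) := by
  show ((W.map (Int.castRingHom ℚ)).map (algebraMap ℚ Qbar)).Δ = _
  rw [WeierstrassCurve.map_Δ, WeierstrassCurve.map_Δ]
  simp

theorem c₄_eq : ((EQ W)⁄Qbar).c₄ = ((W.c₄ : ℤ) : Qbar) := by
  show ((W.map (Int.castRingHom ℚ)).map (algebraMap ℚ Qbar)).c₄ = _
  rw [WeierstrassCurve.map_c₄, WeierstrassCurve.map_c₄]
  simp

/-- **(I4)**: unipotent inertia at a multiplicative prime of a general integral model. -/
theorem unipotent_of_multiplicative {q : ℕ} (hq : q.Prime) (hqΔ : (q : ℤ) ∣ W.Δ)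
    (hqc : ¬ (q : ℤ) ∣ W.c₄) (hΔ0 : W.Δ ≠ 0) (A : ValuationSubring Qbar) (hA : A.LiesOverPrime q)
    {σ : GQ} (hσ : σ ∈ A.inertiaSubgroupIn ℚ) {m : ℕ} (hm : m.Coprime q)
    (P : ((EQ W)⁄Qbar).Point) (hP : m • P = 0) : σ • (σ • P - P) = σ • P - P := by
  have hint : ∀ n : ℤ, A.valuation ((n : ℤ) : Qbar) ≤ 1 := fun n =>
    (A.valuation_le_one_iff _).mpr (intCast_mem A n)
  have h2 : (2 : Qbar) ≠ 0 := two_ne_zero
  obtain ⟨r, t, hr, ht, h3, h6, h4⟩ :=
    NodeTorsion.exists_node_torsion (A := A) ((EQ W)⁄Qbar) h2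
      (by rw [a₁_eq]; exact hint _) (by rw [a₂_eq]; exact hint _) (by rw [a₃_eq]; exact hint _)
      (by rw [a₄_eq]; exact hint _) (by rw [a₆_eq]; exact hint _)
      (by rw [Δ_eq]; exact Fermat.Agent.S05.LocalVal.intCast_valuation_lt_one hq hA hqΔ)
      (by rw [c₄_eq]; exact Fermat.Agent.S05.LocalVal.intCast_valuation_eq_one hq hA hqc)
  have hrA : r ∈ A := (A.valuation_le_one_iff _).mp hr
  -- the translated curve
  have ha1 : (V (EQ W) r t).a₁ = ((EQ W)⁄Qbar).a₁ := by
    simp [V, variableChange_a₁]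
  have ha2 : (V (EQ W) r t).a₂ = ((EQ W)⁄Qbar).a₂ + 3 * r := by
    simp [V, variableChange_a₂]
  have ha3 : (V (EQ W) r t).a₃ = 0 := by
    simp only [V, variableChange_a₃, trans_r, trans_t]
    rw [h3, mul_zero]
  have ha4 : (V (EQ W) r t).a₄
      = ((EQ W)⁄Qbar).a₄ + 2 * r * ((EQ W)⁄Qbar).a₂ - t * ((EQ W)⁄Qbar).a₁ + 3 * r ^ 2 := by
    simp [V, variableChange_a₄]
  have ha6 : (V (EQ W) r t).a₆ = 0 := by
    simp only [V, variableChange_a₆, trans_r, trans_t]
    rw [h6, mul_zero]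
  have hΔ : (V (EQ W) r t).Δ ≠ 0 := by
    simp only [V, variableChange_Δ]
    rw [Δ_eq]
    simp
    exact hΔ0
  have hV : IsNodalForm (V (EQ W) r t) := ⟨ha3, ha6, hΔ⟩
  have hle : ∀ {a b : Qbar}, A.valuation a ≤ 1 → A.valuation b ≤ 1 → A.valuation (a * b) ≤ 1 := by
    intro a b ha hb
    rw [map_mul]
    calc A.valuation a * A.valuation b ≤ 1 * 1 := mul_le_mul' ha hb
      _ = 1 := one_mul 1
  have hadd : ∀ {a b : Qbar}, A.valuation a ≤ 1 → A.valuation b ≤ 1 →
      A.valuation (a + b) ≤ 1 :=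
    fun ha hb => le_trans (A.valuation.map_add _ _) (max_le ha hb)
  have hnat : ∀ n : ℕ, A.valuation ((n : ℕ) : Qbar) ≤ 1 :=
    fun n => (A.valuation_le_one_iff _).mpr (natCast_mem A n)
  have H : NodalData.Hyp A.valuation (V (EQ W) r t).a₁ (V (EQ W) r t).a₂ (V (EQ W) r t).a₄ := by
    refine ⟨?_, ?_, ?_, ?_⟩
    · rw [ha1, a₁_eq]; exact hint _
    · rw [ha2, a₂_eq]
      refine hadd (hint _) (hle ?_ hr)
      have : (3 : Qbar) = ((3 : ℕ) : Qbar) := by norm_num
      rw [this]; exact hnat 3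
    · rw [ha4]; exact h4
    · -- `b₂' ^ 2 = c₄ + 24 b₄'`, `b₄' = 2 a₄'`
      have hc4 : (V (EQ W) r t).c₄ = ((EQ W)⁄Qbar).c₄ := by
        simp [V, variableChange_c₄]
      have e : ((V (EQ W) r t).a₁ ^ 2 + 4 * (V (EQ W) r t).a₂) ^ 2
          = (V (EQ W) r t).c₄ + 48 * (V (EQ W) r t).a₄ := by
        rw [WeierstrassCurve.c₄, WeierstrassCurve.b₂, WeierstrassCurve.b₄, ha3]; ring
      have h48 : A.valuation (48 * (V (EQ W) r t).a₄) < 1 := by
        rw [map_mul]
        have : (48 : Qbar) = ((48 : ℕ) : Qbar) := by norm_num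
        calc A.valuation (48 : Qbar) * A.valuation (V (EQ W) r t).a₄
            ≤ 1 * A.valuation (V (EQ W) r t).a₄ := by
              refine mul_le_mul_left ?_ _
              rw [this]; exact hnat 48
          _ = A.valuation (V (EQ W) r t).a₄ := one_mul _
          _ < 1 := by rw [ha4]; exact h4
      have hc4v : A.valuation (V (EQ W) r t).c₄ = 1 := by
        rw [hc4, c₄_eq]
        exact Fermat.Agent.S05.LocalVal.intCast_valuation_eq_one hq hA hqc
      have h : A.valuation (((V (EQ W) r t).a₁ ^ 2 + 4 * (V (EQ W) r t).a₂) ^ 2) = 1 := by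
        rw [e, Valuation.map_add_eq_of_lt_left _ (by rw [hc4v]; exact h48), hc4v]
      rw [map_pow] at h
      exact (pow_eq_one_iff_of_nonneg zero_le two_ne_zero).mp h
  have hmv : A.valuation ((m : ℕ) : Qbar) = 1 := by
    have hnd : ¬ (q : ℤ) ∣ (m : ℤ) := by
      intro hd
      have : q ∣ m := Int.natCast_dvd_natCast.mp hd
      have := Nat.Coprime.eq_one_of_dvd hm.symm this
      exact hq.one_lt.ne' this
    have := Fermat.Agent.S05.LocalVal.intCast_valuation_eq_one (L := Qbar) hq hA hnd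
    simpa using this
  exact unipotent_of_trans r t hV H hσ hrA hmv P hP

/-- **(I4)** in the shape of the field `mult` of helper19's `TateE.Hyp`. -/
theorem mult_of_semistable (hss : W.IsSemistableModel) (hΔ0 : W.Δ ≠ 0) :
    ∀ q : ℕ, q.Prime → (q : ℤ) ∣ W.Δ → ∀ A : ValuationSubring Qbar, A.LiesOverPrime q →
      ∀ σ ∈ A.inertiaSubgroupIn ℚ, ∀ m : ℕ, m.Coprime q →
        ∀ P : ((EQ W)⁄Qbar).Point, m • P = 0 → σ • σ • P + P = 2 • σ • P := by
  intro q hq hqΔ A hA σ hσ m hm P hP
  have h := unipotent_of_multiplicative W hq hqΔ (hss q hq hqΔ) hΔ0 A hA hσ hm P hP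
  have h1 : σ • (σ • P - P) = σ • σ • P - σ • P := by
    rw [← pointHom_apply (W' := EQ W) σ (σ • P - P), map_sub]
    rfl
  rw [h1] at h
  rw [two_nsmul]
  have h2 : σ • σ • P = σ • P - P + σ • P := eq_add_of_sub_eq h
  rw [h2]; abel

end model

end Fermat.Agent.S58.Mult.Unipotent
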