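import Fermat.Agent.S13.Local.NodalInertia

/-!
# S58 scratch, block (I4): twisted inertia action on the nodal model

`D : NodalData K G a₁ a₂ a₄` is the nodal model `y² + a₁ x y = x³ + a₂ x² + a₄ x` of
`S13/Local`.  For a general Weierstrass curve with multiplicative reduction the nodal coordinates
are obtained by translating a `2`-torsion point reducing to the node to `(0,0)`; this point is in
general NOT fixed by inertia, so an inertia element acts on the nodal coordinates by the
*twisted* rule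

  `X (s P) = σ (X P) + c`,  `Y (s P) = σ (Y P) + c'`,   `v c < 1`,

where `(c, c')` are the coordinates of the `2`-torsion point `s (0,0)`.  All the conclusions of
`S13/Local/NodalInertia` survive the twist:

* `sub_mem_K1` : **(K)** `s P - P ∈ K1` for `P ∈ E0`;
* `sub_mem_E0` : **(C)** `s P - P ∈ E0` for every `P`;
* `fix_of_E0`, `unipotent` : `s (s x - x) = s x - x` for `p • x = 0`, `v p = 1`.
-/

set_option autoImplicit false
set_option linter.unusedSectionVars false
set_option linter.unusedVariables false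

namespace Fermat.Agent.S58.Mult.TwistAct

open Fermat.Agent.S13.Local Fermat.Agent.S13.Local.NodalData

variable {K : Type*} [Field K] {G : Type*} [AddCommGroup G] {a₁ a₂ a₄ : K}
  (D : NodalData K G a₁ a₂ a₄) (A : ValuationSubring K)

/-- A twisted inertia element on the nodal data. -/
structure TwAct (σ : K →+* K) (s : G →+ G) (c c' : K) : Prop where
  mem_iff : ∀ x, σ x ∈ A ↔ x ∈ A
  sub_mem : ∀ x, x ∈ A → σ x - x ∈ A.nonunits
  hval : ∀ x, A.valuation (σ x) = A.valuation x
  inj : ∀ P, s P = 0 → P = 0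
  X_map : ∀ P, P ≠ 0 → D.X (s P) = σ (D.X P) + c
  Y_map : ∀ P, P ≠ 0 → D.Y (s P) = σ (D.Y P) + c'
  hc : A.valuation c < 1

variable {D A} {σ : K →+* K} {s : G →+ G} {c c' : K}

/-- An untwisted inertia element is a twisted one with `c = c' = 0`. -/
theorem TwAct.of_inertiaAct (h : D.InertiaAct A σ s)
    (hval : ∀ x, A.valuation (σ x) = A.valuation x) : TwAct D A σ s 0 0 where
  mem_iff := h.mem_iff
  sub_mem := h.sub_mem
  hval := hval
  inj := h.inj
  X_map := fun P hP => by rw [h.X_map P hP, add_zero]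
  Y_map := fun P hP => by rw [h.Y_map P hP, add_zero]
  hc := by rw [map_zero]; exact zero_lt_one

namespace TwAct

theorem map_ne_zero (h : TwAct D A σ s c c') {P : G} (hP : P ≠ 0) : s P ≠ 0 :=
  fun h0 => hP (h.inj P h0)

/-! ### The `2`-torsion point `S₀ = (0,0)` and its image `S' = s S₀ = (c, c')` -/

theorem exists_S0 (D : NodalData K G a₁ a₂ a₄) : ∃ S : G, S ≠ 0 ∧ D.X S = 0 ∧ D.Y S = 0 :=
  D.exists_point 0 0 (by ring)

theorem S0_add_self {S : G} (hS : S ≠ 0) (hX : D.X S = 0) : S + S = 0 :=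
  D.two_of_T S hS (by rw [hX, Y_eq_zero_of_X_eq_zero hS hX]; ring)

theorem X_S' (h : TwAct D A σ s c c') {S : G} (hS : S ≠ 0) (hX : D.X S = 0) : D.X (s S) = c := by
  rw [h.X_map S hS, hX, map_zero, zero_add]

theorem Y_S' (h : TwAct D A σ s c c') {S : G} (hS : S ≠ 0) (hX : D.X S = 0) :
    D.Y (s S) = c' := by
  rw [h.Y_map S hS, Y_eq_zero_of_X_eq_zero hS hX, map_zero, zero_add]

/-- `2 c' + a₁ c = 0`: the point `(c, c')` is `2`-torsion. -/
theorem two_c' (h : TwAct D A σ s c c') : 2 * c' + a₁ * c = 0 := by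
  obtain ⟨S, hS, hX, hY⟩ := exists_S0 D
  have h2 : s S + s S = 0 := by rw [← map_add, S0_add_self hS hX, map_zero]
  have hT := (D.two_torsion_iff (h.map_ne_zero hS)).mp h2
  unfold NodalData.T at hT
  rwa [h.X_S' hS hX, h.Y_S' hS hX] at hT

/-- The equation of `(c, c')`. -/
theorem eqn_c (h : TwAct D A σ s c c') :
    c' ^ 2 + a₁ * c * c' = c ^ 3 + a₂ * c ^ 2 + a₄ * c := by
  obtain ⟨S, hS, hX, hY⟩ := exists_S0 D
  have := D.eqn (s S) (h.map_ne_zero hS)
  rwa [h.X_S' hS hX, h.Y_S' hS hX] at this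

theorem c'_eq_zero_of_c (h : TwAct D A σ s c c') (hc0 : c = 0) : c' = 0 := by
  have := h.eqn_c
  rw [hc0] at this
  have h2 : c' ^ 2 = 0 := by linear_combination this
  exact pow_eq_zero_iff two_ne_zero |>.mp h2

/-- `c (4 c² + b₂ c + 4 a₄) = 0`. -/
theorem quad_c (h : TwAct D A σ s c c') :
    c * (4 * c ^ 2 + (a₁ ^ 2 + 4 * a₂) * c + 4 * a₄) = 0 := by
  have h1 := h.two_c'
  have h2 := h.eqn_c
  have e : 2 * c' = -(a₁ * c) := by linear_combination h1
  linear_combination (-4 : K) * h2 + (2 * c' - a₁ * c + 2 * a₁ * c) * h1 - 0 * e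

private theorem v_four_le (A : ValuationSubring K) : A.valuation (4 : K) ≤ 1 := by
  have : (4 : K) = ((4 : ℕ) : K) := by norm_num
  rw [this]
  exact NodalKernel.v_natCast_le A.valuation 4

/-- `v c ≤ v a₄`. -/
theorem v_c_le (H : Hyp A.valuation a₁ a₂ a₄) (h : TwAct D A σ s c c') :
    A.valuation c ≤ A.valuation a₄ := by
  by_cases hc0 : c = 0
  · rw [hc0, map_zero]; exact zero_le
  have hq := h.quad_c
  have hq' : 4 * c ^ 2 + (a₁ ^ 2 + 4 * a₂) * c + 4 * a₄ = 0 :=
    (mul_eq_zero.mp hq).resolve_left hc0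
  -- `4 a₄ = - c (b₂ + 4 c)`
  have e : 4 * a₄ = -(c * ((a₁ ^ 2 + 4 * a₂) + 4 * c)) := by linear_combination hq'
  have h4c : A.valuation (4 * c) < 1 := by
    rw [map_mul]
    calc A.valuation (4 : K) * A.valuation c ≤ 1 * A.valuation c :=
          mul_le_mul_left (v_four_le A) _
      _ = A.valuation c := one_mul _
      _ < 1 := h.hc
  have hu : A.valuation ((a₁ ^ 2 + 4 * a₂) + 4 * c) = 1 := by
    rw [Valuation.map_add_eq_of_lt_left _ (by rw [H.b2]; exact h4c), H.b2]
  have hv : A.valuation (4 * a₄) = A.valuation c := by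
    rw [e, Valuation.map_neg, map_mul, hu, mul_one]
  rw [← hv, map_mul]
  calc A.valuation (4 : K) * A.valuation a₄ ≤ 1 * A.valuation a₄ :=
        mul_le_mul_left (v_four_le A) _
    _ = A.valuation a₄ := one_mul _

/-- `v c' ≤ v a₄`. -/
theorem v_c'_le (H : Hyp A.valuation a₁ a₂ a₄) (h : TwAct D A σ s c c') :
    A.valuation c' ≤ A.valuation a₄ := by
  by_contra hcon
  rw [not_le] at hcon
  have hcle := h.v_c_le H
  have ha4 : A.valuation a₄ < 1 := H.a4
  have hclt : A.valuation c < A.valuation c' := lt_of_le_of_lt hcle hcon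
  have hc'pos : 0 < A.valuation c' := lt_of_le_of_lt zero_le hcon
  -- LHS: `c' (c' + a₁ c)` has valuation `v c' ^ 2`
  have h1 : A.valuation (a₁ * c) < A.valuation c' := by
    rw [map_mul]
    calc A.valuation a₁ * A.valuation c ≤ 1 * A.valuation c := mul_le_mul_left H.a1 _
      _ = A.valuation c := one_mul _
      _ < _ := hclt
  have h2 : A.valuation (c' + a₁ * c) = A.valuation c' :=
    Valuation.map_add_eq_of_lt_left _ h1
  have e : c' * (c' + a₁ * c) = c * (c ^ 2 + a₂ * c + a₄) := by linear_combination h.eqn_c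
  have hL : A.valuation (c' * (c' + a₁ * c)) = A.valuation c' * A.valuation c' := by
    rw [map_mul, h2]
  -- RHS ≤ v a₄ * v a₄
  have hc1 : A.valuation c ≤ 1 := le_of_lt h.hc
  have h3 : A.valuation (c ^ 2 + a₂ * c + a₄) ≤ A.valuation a₄ := by
    refine le_trans (A.valuation.map_add _ _) (max_le ?_ le_rfl)
    refine le_trans (A.valuation.map_add _ _) (max_le ?_ ?_)
    · rw [map_pow, sq]
      calc A.valuation c * A.valuation c ≤ 1 * A.valuation c := mul_le_mul_left hc1 _
        _ = A.valuation c := one_mul _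
        _ ≤ _ := hcle
    · rw [map_mul]
      calc A.valuation a₂ * A.valuation c ≤ 1 * A.valuation c := mul_le_mul_left H.a2 _
        _ = A.valuation c := one_mul _
        _ ≤ _ := hcle
  have hR : A.valuation (c * (c ^ 2 + a₂ * c + a₄)) ≤ A.valuation a₄ * A.valuation a₄ := by
    rw [map_mul]
    exact mul_le_mul' hcle h3
  rw [← e, hL] at hR
  have : A.valuation a₄ * A.valuation a₄ < A.valuation c' * A.valuation c' :=
    calc A.valuation a₄ * A.valuation a₄ ≤ A.valuation a₄ * A.valuation c' :=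
          mul_le_mul_right (le_of_lt hcon) _
      _ < A.valuation c' * A.valuation c' := mul_lt_mul_of_pos_right hcon hc'pos
  exact absurd hR (not_le.mpr this)

/-! ### Valuation of the twisted coordinates -/

theorem v_X_map_of_lt (h : TwAct D A σ s c c') {P : G} (hP : P ≠ 0)
    (hlt : A.valuation c < A.valuation (D.X P)) :
    A.valuation (D.X (s P)) = A.valuation (D.X P) := by
  rw [h.X_map P hP, Valuation.map_add_eq_of_lt_left _ (by rw [h.hval]; exact hlt), h.hval]

theorem e0_map (h : TwAct D A σ s c c') {P : G} (hP : D.E0 A.valuation P) :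
    D.E0 A.valuation (s P) := by
  by_cases hP0 : P = 0
  · left; rw [hP0, map_zero]
  · right
    have h1 : 1 ≤ A.valuation (D.X P) := hP.resolve_left hP0
    rw [h.v_X_map_of_lt hP0 (lt_of_lt_of_le h.hc h1)]
    exact h1

theorem k1_map (h : TwAct D A σ s c c') {P : G} (hP : D.K1 A.valuation P) :
    D.K1 A.valuation (s P) := by
  by_cases hP0 : P = 0
  · left; rw [hP0, map_zero]
  · right
    have h1 : 1 < A.valuation (D.X P) := hP.resolve_left hP0
    rw [h.v_X_map_of_lt hP0 (lt_trans h.hc h1)]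
    exact h1

/-! ### (K) -/

theorem v_c'_lt_one (H : Hyp A.valuation a₁ a₂ a₄) (h : TwAct D A σ s c c') :
    A.valuation c' < 1 := lt_of_le_of_lt (h.v_c'_le H) H.a4

/-- **(K)**: `s P - P ∈ K1` for every point `P` with non-singular reduction. -/
theorem sub_mem_K1 (H : Hyp A.valuation a₁ a₂ a₄) (h : TwAct D A σ s c c') {P : G}
    (hP : D.E0 A.valuation P) : D.K1 A.valuation (s P - P) := by
  by_cases hP0 : P = 0
  · left; rw [hP0, map_zero, sub_zero]
  have hX : 1 ≤ A.valuation (D.X P) := hP.resolve_left hP0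
  rcases eq_or_lt_of_le hX with h1 | h1
  · have hX1 : A.valuation (D.X P) = 1 := h1.symm
    have hXA : D.X P ∈ A := (A.valuation_le_one_iff _).mp (le_of_eq hX1)
    have hYA : D.Y P ∈ A :=
      (A.valuation_le_one_iff _).mp (NodalRed.val_Y_le_one D A.valuation H hP0 (le_of_eq hX1))
    apply NodalRed.sub_mem_K1 D A.valuation H (h.map_ne_zero hP0) hP0
    · rw [h.v_X_map_of_lt hP0 (by rw [hX1]; exact h.hc), hX1]
    · rw [h.X_map P hP0]
      have e : σ (D.X P) + c - D.X P = (σ (D.X P) - D.X P) + c := by ring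
      rw [e]
      exact Valuation.map_add_lt _ (A.mem_nonunits_iff.mp (h.sub_mem _ hXA)) h.hc
    · rw [h.Y_map P hP0]
      have e : σ (D.Y P) + c' - D.Y P = (σ (D.Y P) - D.Y P) + c' := by ring
      rw [e]
      exact Valuation.map_add_lt _ (A.mem_nonunits_iff.mp (h.sub_mem _ hYA)) (h.v_c'_lt_one H)
  · have hK : D.K1 A.valuation P := Or.inr h1
    rw [sub_eq_add_neg]
    exact NodalInertia.k1_add D A.valuation H _ _ (h.k1_map hK) (K1.neg D A.valuation hK)

theorem sub_mem_E0_of_E0 (H : Hyp A.valuation a₁ a₂ a₄) (h : TwAct D A σ s c c') {P : G}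
    (hP : D.E0 A.valuation P) : D.E0 A.valuation (s P - P) :=
  NodalRed.e0_sub D A.valuation H (h.e0_map hP) hP

/-! ### (C) -/

/-- `S' - S₀ ∈ E0` where `S₀ = (0,0)` and `S' = s S₀`. -/
theorem S'_sub_S0_mem_E0 (H : Hyp A.valuation a₁ a₂ a₄) (h : TwAct D A σ s c c') {S : G}
    (hS : S ≠ 0) (hX : D.X S = 0) : D.E0 A.valuation (s S - S) := by
  have hS' : s S ≠ 0 := h.map_ne_zero hS
  by_cases hc0 : c = 0
  · have : s S = S := by
      refine D.ext (s S) S hS' hS ?_ ?_
      · rw [h.X_S' hS hX, hc0, hX]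
      · rw [h.Y_S' hS hX, h.c'_eq_zero_of_c hc0, Y_eq_zero_of_X_eq_zero hS hX]
    rw [this, sub_self]; exact D.e0_zero _
  · have hXS' : D.X (s S) ≠ 0 := by rw [h.X_S' hS hX]; exact hc0
    have hprod := X_add_two_torsion (D := D) hS' hS hX hXS'
    have hneg : -S = S := by
      have := S0_add_self (D := D) hS hX
      exact (eq_neg_of_add_eq_zero_left this).symm
    have e : s S - S = s S + S := by rw [sub_eq_add_neg, hneg]
    rw [e]
    right
    have hv : A.valuation (D.X (s S + S)) * A.valuation c = A.valuation a₄ := by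
      rw [← map_mul, ← h.X_S' hS hX, hprod]
    have hcpos : 0 < A.valuation c := zero_lt_iff.mpr ((Valuation.ne_zero_iff _).mpr hc0)
    have h2 : 1 * A.valuation c ≤ A.valuation (D.X (s S + S)) * A.valuation c := by
      rw [one_mul, hv]; exact h.v_c_le H
    exact le_of_mul_le_mul_right h2 hcpos

/-- **(C)**: `s P - P` has non-singular reduction for every point `P`. -/
theorem sub_mem_E0 (H : Hyp A.valuation a₁ a₂ a₄) (h : TwAct D A σ s c c') (P : G) :
    D.E0 A.valuation (s P - P) := by
  rcases D.e0_or_inN_or_inMid A.valuation P with h0 | hN | hM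
  · exact h.sub_mem_E0_of_E0 H h0
  · -- strict node region
    have hP0 : P ≠ 0 := hN.1
    have hXP : D.X P ≠ 0 := NodalPhase.InN.X_ne_zero hN
    have hsP0 : s P ≠ 0 := h.map_ne_zero hP0
    have hcX : A.valuation c < A.valuation (D.X P) := lt_of_le_of_lt (h.v_c_le H) hN.2.1
    have hc'X : A.valuation c' < A.valuation (D.X P) := lt_of_le_of_lt (h.v_c'_le H) hN.2.1
    have hvX : A.valuation (D.X (s P)) = A.valuation (D.X P) := h.v_X_map_of_lt hP0 hcX
    have hNs : D.InN A.valuation (s P) :=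
      ⟨hsP0, by rw [hvX]; exact hN.2.1, by rw [hvX]; exact hN.2.2⟩
    have hsgle : A.valuation (D.sg P) ≤ 1 := NodalPhase.InN.v_sg_le H hN
    have hsgA : D.sg P ∈ A := (A.valuation_le_one_iff _).mp hsgle
    have hXpos : 0 < A.valuation (D.X P) :=
      zero_lt_iff.mpr ((Valuation.ne_zero_iff _).mpr hXP)
    -- `v (Y P) ≤ v (X P)`
    have hYX : A.valuation (D.Y P) ≤ A.valuation (D.X P) := by
      have : D.Y P = D.sg P * D.X P := (sg_mul_X (D := D) hXP).symm
      rw [this, map_mul]
      calc A.valuation (D.sg P) * A.valuation (D.X P) ≤ 1 * A.valuation (D.X P) :=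
            mul_le_mul_left hsgle _
        _ = _ := one_mul _
    have hσX : σ (D.X P) ≠ 0 := by
      rw [← Valuation.ne_zero_iff A.valuation, h.hval]
      exact (Valuation.ne_zero_iff _).mpr hXP
    have hXs0 : D.X (s P) ≠ 0 := NodalPhase.InN.X_ne_zero hNs
    -- `sg (s P) - σ (sg P) ∈ 𝔪`
    have hdiff : A.valuation (D.sg (s P) - σ (D.sg P)) < 1 := by
      have e : D.sg (s P) - σ (D.sg P)
          = (σ (D.X P) * c' - σ (D.Y P) * c) / (D.X (s P) * σ (D.X P)) := by
        unfold NodalData.sg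
        rw [map_div₀, h.Y_map P hP0]
        have hx' : σ (D.X P) + c ≠ 0 := by rw [← h.X_map P hP0]; exact hXs0
        rw [h.X_map P hP0]
        field_simp
        ring
      rw [e, map_div₀, map_mul, hvX, h.hval]
      rw [div_lt_one₀ (mul_pos hXpos hXpos)]
      refine lt_of_le_of_lt (A.valuation.map_sub _ _) (max_lt ?_ ?_)
      · rw [map_mul, h.hval]
        exact mul_lt_mul_of_pos_left hc'X hXpos
      · rw [map_mul, h.hval]
        calc A.valuation (D.Y P) * A.valuation c ≤ A.valuation (D.X P) * A.valuation c :=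
              mul_le_mul_left hYX _
          _ < A.valuation (D.X P) * A.valuation (D.X P) := mul_lt_mul_of_pos_left hcX hXpos
    have hsame : D.Same A.valuation (s P) P := by
      unfold NodalData.Same
      have e : D.sg (s P) - D.sg P = (D.sg (s P) - σ (D.sg P)) + (σ (D.sg P) - D.sg P) := by ring
      rw [e]
      exact Valuation.map_add_lt _ hdiff (A.mem_nonunits_iff.mp (h.sub_mem _ hsgA))
    have hopp : D.Opp A.valuation (s P) (-P) :=
      NodalPhase.Same.opp hsame (NodalPhase.Opp.symm (NodalPhase.opp_neg hP0 hXP))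
    have hNneg : D.InN A.valuation (-P) := InN.neg D A.valuation hN
    have hveq : A.valuation (D.X (s P)) = A.valuation (D.X (-P)) := by
      rw [hvX, D.X_neg P hP0]
    rw [sub_eq_add_neg]
    rcases D.gen_or_add_eq_zero hsP0 hNneg.1 with hgen | hzero
    · exact Or.inr (NodalNode.rule_b2 H hgen hNs hNneg hopp hveq)
    · exact Or.inl hzero
  · -- middle zone: translate by the `2`-torsion point `(0, 0)`
    have hP0 : P ≠ 0 := hM.1
    obtain ⟨S, hS0, hXS, hYS⟩ := exists_S0 D
    have hSS := h.S'_sub_S0_mem_E0 H hS0 hXS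
    by_cases hXP : D.X P = 0
    · have hPS : P = S := by
        refine D.ext P S hP0 hS0 ?_ ?_
        · rw [hXP, hXS]
        · rw [Y_eq_zero_of_X_eq_zero hP0 hXP, hYS]
      rw [hPS]; exact hSS
    · have hprod := X_add_two_torsion (D := D) hP0 hS0 hXS hXP
      have hvprod : A.valuation (D.X (P + S)) * A.valuation (D.X P) = A.valuation a₄ := by
        rw [← map_mul, hprod]
      have hvXpos : 0 < A.valuation (D.X P) :=
        zero_lt_iff.mpr ((Valuation.ne_zero_iff _).mpr hXP)
      have h1 : 1 ≤ A.valuation (D.X (P + S)) := by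
        have h2 : 1 * A.valuation (D.X P) ≤ A.valuation (D.X (P + S)) * A.valuation (D.X P) := by
          rw [one_mul, hvprod]
          exact hM.2
        exact le_of_mul_le_mul_right h2 hvXpos
      have h3 := h.sub_mem_E0_of_E0 H (P := P + S) (Or.inr h1)
      have h4 : s P - P = (s (P + S) - (P + S)) - (s S - S) := by
        rw [map_add]; abel
      rw [h4]
      exact NodalRed.e0_sub D A.valuation H h3 hSS

/-! ### Unipotence -/

/-- A twisted inertia element fixes the `p`-torsion points with non-singular reduction. -/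
theorem fix_of_E0 (H : Hyp A.valuation a₁ a₂ a₄) (h : TwAct D A σ s c c') {p : ℕ}
    (hvp : A.valuation (p : K) = 1) {x : G} (hx : p • x = 0) (hE : D.E0 A.valuation x) :
    s x = x := by
  have hK := h.sub_mem_K1 H hE
  have h1 : p • (s x - x) = 0 := by
    rw [smul_sub, ← map_nsmul, hx, map_zero, sub_zero]
  exact sub_eq_zero.mp (NodalInertia.k1_tors D A.valuation H hvp _ hK h1)

/-- **(I4), abstract form**: a twisted inertia element is unipotent on the `p`-torsion. -/
theorem unipotent (H : Hyp A.valuation a₁ a₂ a₄) (h : TwAct D A σ s c c') {p : ℕ}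
    (hvp : A.valuation (p : K) = 1) {x : G} (hx : p • x = 0) : s (s x - x) = s x - x := by
  refine h.fix_of_E0 H hvp ?_ (h.sub_mem_E0 H x)
  rw [smul_sub, ← map_nsmul, hx, map_zero, sub_zero]

end TwAct

end Fermat.Agent.S58.Mult.TwistAct
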